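/-
S56 / block (H), leaf H4 (helper25): THE NUMERICAL CHAIN.

`finrank_Sel_le` : the Greenberg–Wiles formula (`PT/Instance.delta_formula_global`) for the local
data `localData T` together with the NAMED numerical inputs
  (GEC)   `h¹(G_T, M) = h²(G_T, M) + h⁰(G_T, M) + e`,
  (IV.1') `h⁰(G_T, M) = h⁰(G_T, M') = 0`,
  (E-Q)   `𝓛_v = ⊤`, `h⁰(ℚ_v, M') = d` at the Taylor–Wiles places `v ∈ Qs`,
  (E-MIN) `dim 𝓛_v + h⁰(ℚ_v, M') ≤ h¹(ℚ_v, M)` at the other places `v ≠ v_p`,
  (E-SO/FLAT + LEC) `dim 𝓛_p + h⁰(ℚ_p, M') + e ≤ h¹(ℚ_p, M)`,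
  (TW)    the dual Selmer group vanishes,
gives `dim_{𝔽_p} Sel_𝓛(M) ≤ |Qs| · d`, hence `#Sel_𝓛(M) ≤ p^{|Qs| d}`.

Two-level form (`S ⊆ T = S ∪ Q`): `extendCond` (the conditions `𝓛S` on `S`, everything at the new
primes), `dualSel_extend_eq_bot` (the dual Selmer group over `T` vanishes as soon as the classes of
the dual Selmer group over `S` killed at all `Q j` vanish — `Inflation` + `PerpFree`), and
`finrank_Sel_extend_le`, `card_Sel_extend_le` (everything assembled; the only inputs left are the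
named numerical hypotheses and `hkill`, the output of `TW/KillDualPad`).
-/
import Fermat.Agent.S56.PT.Instance
import Fermat.Agent.S56.PT.Inflation
import Fermat.Agent.S56.PT.PerpFree

set_option autoImplicit false
set_option linter.unusedSectionVars false

namespace Fermat.Agent.S56.Asm.Count

open CategoryTheory groupCohomology Rep Module ExtCitation
  Fermat.Agent.S55.Level Fermat.Agent.S55.Cone
  Fermat.Agent.S55.DualTwist Fermat.Agent.S55.Assembly
  Fermat.Agent.S56.PT.LocalDuality Fermat.Agent.S56.PT.Selmer Fermat.Agent.S56.PT.Instance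

local notation "Qbar" => AlgebraicClosure ℚ
local notation "Γ" => (AlgebraicClosure ℚ ≃ₐ[ℚ] AlgebraicClosure ℚ)

/-! ### Pure arithmetic -/

/-- The bookkeeping of the local terms. -/
theorem sum_local_le {ι : Type*} [Fintype ι] [DecidableEq ι] (f g : ι → ℕ) (Qs : Finset ι)
    (vp : ι) (hvp : vp ∉ Qs) (d e : ℕ)
    (hQ : ∀ v ∈ Qs, f v = g v + d) (hmin : ∀ v, v ∉ Qs → v ≠ vp → f v ≤ g v)
    (hp : f vp + e ≤ g vp) :
    e + ∑ v, f v ≤ ∑ v, g v + Qs.card * d := by
  classical
  rw [← Finset.sum_add_sum_compl Qs f, ← Finset.sum_add_sum_compl Qs g]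
  have h1 : ∑ v ∈ Qs, f v = ∑ v ∈ Qs, g v + Qs.card * d := by
    rw [Finset.sum_congr rfl hQ, Finset.sum_add_distrib, Finset.sum_const, smul_eq_mul]
  have hvp' : vp ∈ Qsᶜ := Finset.mem_compl.2 hvp
  have h2 : e + ∑ v ∈ Qsᶜ, f v ≤ ∑ v ∈ Qsᶜ, g v := by
    rw [← Finset.add_sum_erase _ f hvp', ← Finset.add_sum_erase _ g hvp']
    have h3 : ∑ v ∈ Qsᶜ.erase vp, f v ≤ ∑ v ∈ Qsᶜ.erase vp, g v :=
      Finset.sum_le_sum fun v hv =>
        hmin v (Finset.mem_compl.1 (Finset.mem_of_mem_erase hv)) (Finset.ne_of_mem_erase hv)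
    omega
  omega

/-! ### One level -/

section OneLevel

variable {p : ℕ} [Fact p.Prime] (T : Finset Nat.Primes)
  [IsDiscrete (globalLevel T) (ofChar (k := ZMod p) (cycloChar p))]
  {tr : Hc (localData T) (ofChar (k := ZMod p) (cycloChar p)) 3 →ₗ[ZMod p] ZMod p}
  (M : Rep (ZMod p) Γ) [FiniteDimensional (ZMod p) M]
  [IsDiscrete (globalLevel T) M] [IsDiscrete (globalLevel T) (M.dualTwist (cycloChar p))]

/-- **H4, the numerical chain** (all dimensions over `𝔽_p`). -/
theorem finrank_Sel_le (hpT : pPrime p ∈ T) (h : PTHyp (localData T) (cycloChar p) tr)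
    (𝓛 : LocalCond (localData T) M) (Qs : Finset (localData T).ι) (vp : (localData T).ι)
    (hvp : vp ∉ Qs) (d e : ℕ)
    (hGEC : finrank (ZMod p) (levelCohomology (globalLevel T) M 1) =
      finrank (ZMod p) (levelCohomology (globalLevel T) M 2) +
        finrank (ZMod p) (levelCohomology (globalLevel T) M 0) + e)
    (h0 : finrank (ZMod p) (levelCohomology (globalLevel T) M 0) = 0)
    (h0' : finrank (ZMod p) (levelCohomology (globalLevel T) (M.dualTwist (cycloChar p)) 0) = 0)
    (hQ : ∀ v ∈ Qs, 𝓛 v = ⊤ ∧ finrank (ZMod p) (levelCohomology ((localData T).𝒱 v)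
      (Rep.res ((localData T).r v) (M.dualTwist (cycloChar p))) 0) = d)
    (hmin : ∀ v, v ∉ Qs → v ≠ vp → finrank (ZMod p) (𝓛 v) +
      finrank (ZMod p) (levelCohomology ((localData T).𝒱 v)
        (Rep.res ((localData T).r v) (M.dualTwist (cycloChar p))) 0) ≤
      finrank (ZMod p) (levelCohomology ((localData T).𝒱 v) (Rep.res ((localData T).r v) M) 1))
    (hp : finrank (ZMod p) (𝓛 vp) +
      finrank (ZMod p) (levelCohomology ((localData T).𝒱 vp)
        (Rep.res ((localData T).r vp) (M.dualTwist (cycloChar p))) 0) + e ≤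
      finrank (ZMod p) (levelCohomology ((localData T).𝒱 vp) (Rep.res ((localData T).r vp) M) 1))
    (hdual : Sel (localData T) (M.dualTwist (cycloChar p))
      (LocalCond.perp (localData T) (cycloChar p) tr M 𝓛) = ⊥) :
    finrank (ZMod p) (Sel (localData T) M 𝓛) ≤ Qs.card * d := by
  have hδ := delta_formula_global T tr hpT h M 𝓛
  rw [hdual, finrank_bot, h0', hGEC, h0] at hδ
  -- the local terms
  have hloc := sum_local_le
    (fun v => finrank (ZMod p) (𝓛 v) + finrank (ZMod p) (levelCohomology ((localData T).𝒱 v)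
      (Rep.res ((localData T).r v) (M.dualTwist (cycloChar p))) 0))
    (fun v => finrank (ZMod p)
      (levelCohomology ((localData T).𝒱 v) (Rep.res ((localData T).r v) M) 1))
    Qs vp hvp d e
    (fun v hv => by
      show finrank (ZMod p) (𝓛 v) + _ = _
      rw [(hQ v hv).1, finrank_top, (hQ v hv).2])
    hmin (by
      show finrank (ZMod p) (𝓛 vp) + _ + e ≤ _
      exact hp)
  rw [Finset.sum_add_distrib] at hloc
  omega

/-- **H4, cardinality form.** -/
theorem card_Sel_le (hpT : pPrime p ∈ T) (h : PTHyp (localData T) (cycloChar p) tr)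
    (𝓛 : LocalCond (localData T) M) (Qs : Finset (localData T).ι) (vp : (localData T).ι)
    (hvp : vp ∉ Qs) (d e : ℕ)
    (hGEC : finrank (ZMod p) (levelCohomology (globalLevel T) M 1) =
      finrank (ZMod p) (levelCohomology (globalLevel T) M 2) +
        finrank (ZMod p) (levelCohomology (globalLevel T) M 0) + e)
    (h0 : finrank (ZMod p) (levelCohomology (globalLevel T) M 0) = 0)
    (h0' : finrank (ZMod p) (levelCohomology (globalLevel T) (M.dualTwist (cycloChar p)) 0) = 0)
    (hQ : ∀ v ∈ Qs, 𝓛 v = ⊤ ∧ finrank (ZMod p) (levelCohomology ((localData T).𝒱 v)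
      (Rep.res ((localData T).r v) (M.dualTwist (cycloChar p))) 0) = d)
    (hmin : ∀ v, v ∉ Qs → v ≠ vp → finrank (ZMod p) (𝓛 v) +
      finrank (ZMod p) (levelCohomology ((localData T).𝒱 v)
        (Rep.res ((localData T).r v) (M.dualTwist (cycloChar p))) 0) ≤
      finrank (ZMod p) (levelCohomology ((localData T).𝒱 v) (Rep.res ((localData T).r v) M) 1))
    (hp : finrank (ZMod p) (𝓛 vp) +
      finrank (ZMod p) (levelCohomology ((localData T).𝒱 vp)
        (Rep.res ((localData T).r vp) (M.dualTwist (cycloChar p))) 0) + e ≤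
      finrank (ZMod p) (levelCohomology ((localData T).𝒱 vp) (Rep.res ((localData T).r vp) M) 1))
    (hdual : Sel (localData T) (M.dualTwist (cycloChar p))
      (LocalCond.perp (localData T) (cycloChar p) tr M 𝓛) = ⊥) :
    Nat.card (Sel (localData T) M 𝓛) ≤ p ^ (Qs.card * d) := by
  have hfd := finiteDimensional_global_one T hpT M
  rw [Module.natCard_eq_pow_finrank (K := ZMod p), Nat.card_zmod]
  exact Nat.pow_le_pow_right (Fact.out : p.Prime).pos
    (finrank_Sel_le T M hpT h 𝓛 Qs vp hvp d e hGEC h0 h0' hQ hmin hp hdual)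

end OneLevel

/-! ### Two levels: `S ⊆ T = S ∪ Q` -/

section TwoLevel

open Fermat.Agent.S56.PT.Inflation Fermat.Agent.S56.PT.PerpFree

variable {p : ℕ} [Fact p.Prime] {S T : Finset Nat.Primes} (M : Rep (ZMod p) Γ)
  [FiniteDimensional (ZMod p) M] [IsDiscrete (globalLevel S) M] [IsDiscrete (globalLevel T) M]

/-- The local conditions on `T ⊇ S` extending `𝓛S`: `𝓛S` at the primes of `S`, everything at the
new primes. -/
noncomputable def extendCond (𝓛S : LocalCond (localData S) M) : LocalCond (localData T) M :=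
  fun v : ↥T => if h : v.1 ∈ S then 𝓛S (⟨v.1, h⟩ : ↥S) else ⊤

theorem extendCond_of_mem (hST : S ⊆ T) (𝓛S : LocalCond (localData S) M) (q : Nat.Primes)
    (hq : q ∈ S) : extendCond (T := T) M 𝓛S (⟨q, hST hq⟩ : ↥T) = 𝓛S (⟨q, hq⟩ : ↥S) :=
  dif_pos hq

theorem extendCond_of_not_mem (𝓛S : LocalCond (localData S) M) (v : ↥T) (hv : v.1 ∉ S) :
    extendCond (T := T) M 𝓛S v = ⊤ :=
  dif_neg hv

variable [IsDiscrete (globalLevel S) (ofChar (k := ZMod p) (cycloChar p))]
  [IsDiscrete (globalLevel T) (ofChar (k := ZMod p) (cycloChar p))]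
  [IsDiscrete (globalLevel S) (M.dualTwist (cycloChar p))]
  [IsDiscrete (globalLevel T) (M.dualTwist (cycloChar p))]
  {trS : Hc (localData S) (ofChar (k := ZMod p) (cycloChar p)) 3 →ₗ[ZMod p] ZMod p}
  {trT : Hc (localData T) (ofChar (k := ZMod p) (cycloChar p)) 3 →ₗ[ZMod p] ZMod p}

/-- **The dual Selmer group over `T = S ∪ Q` vanishes** as soon as the classes of the dual Selmer
group over `S` which are killed at all the new primes `Q j` vanish (`hkill` = the output of
`TW/KillDualPad.exists_family_inf_eq_bot_pad` for `K := killedAt M' Sel*`). -/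
theorem dualSel_extend_eq_bot (hST : S ⊆ T)
    (hS : LocalHyp (localData S) (cycloChar p) trS) (hT : LocalHyp (localData T) (cycloChar p) trT)
    (𝓛S : LocalCond (localData S) M) {ι : Type*} (Q : ι → Nat.Primes)
    (hQ : ∀ j, Q j ∈ T ∧ Q j ∉ S)
    (hkill : ⨅ j, killedAt (M.dualTwist (cycloChar p))
      (Sel (localData S) (M.dualTwist (cycloChar p))
        (LocalCond.perp (localData S) (cycloChar p) trS M 𝓛S)) (Q j) = ⊥) :
    Sel (localData T) (M.dualTwist (cycloChar p))
      (LocalCond.perp (localData T) (cycloChar p) trT M (extendCond M 𝓛S)) = ⊥ := by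
  have hfin : Finite (M.dualTwist (cycloChar p)) := by
    have : FiniteDimensional (ZMod p) (M.dualTwist (cycloChar p)) :=
      inferInstanceAs (FiniteDimensional (ZMod p) (Module.Dual (ZMod p) M))
    exact Module.finite_of_finite (ZMod p)
  exact Sel_eq_bot_of_iInf_killedAt (M.dualTwist (cycloChar p)) hST
    (LocalCond.perp (localData S) (cycloChar p) trS M 𝓛S)
    (LocalCond.perp (localData T) (cycloChar p) trT M (extendCond M 𝓛S))
    (fun q hq => perp_localData_eq M hST hS hT 𝓛S (extendCond M 𝓛S) q hq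
      (extendCond_of_mem M hST 𝓛S q hq))
    (fun v hv => perp_top M hT (extendCond M 𝓛S) v (extendCond_of_not_mem M 𝓛S v hv))
    Q hQ hkill

/-- **H4, assembled over the two levels.**  `S ∋ p`, `T = S ∪ {Q j}` with `r` new primes; local
conditions `𝓛S` on `S` extended by everything at the new primes.  From the named numerical inputs
and `hkill`: `dim_{𝔽_p} Sel(T, M) ≤ r · d`. -/
theorem finrank_Sel_extend_le (hpS : pPrime p ∈ S) (hST : S ⊆ T)
    (hS : PTHyp (localData S) (cycloChar p) trS) (hT : PTHyp (localData T) (cycloChar p) trT)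
    (𝓛S : LocalCond (localData S) M) {r : ℕ} (Q : Fin r → Nat.Primes)
    (hQinj : Function.Injective Q) (hQS : ∀ j, Q j ∉ S)
    (hTQ : ∀ q, q ∈ T ↔ q ∈ S ∨ ∃ j, Q j = q) (d e : ℕ)
    (hGEC : finrank (ZMod p) (levelCohomology (globalLevel T) M 1) =
      finrank (ZMod p) (levelCohomology (globalLevel T) M 2) +
        finrank (ZMod p) (levelCohomology (globalLevel T) M 0) + e)
    (h0 : finrank (ZMod p) (levelCohomology (globalLevel T) M 0) = 0)
    (h0' : finrank (ZMod p) (levelCohomology (globalLevel T) (M.dualTwist (cycloChar p)) 0) = 0)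
    (hQd : ∀ v : ↥T, v.1 ∉ S → finrank (ZMod p) (levelCohomology ((localData T).𝒱 v)
      (Rep.res ((localData T).r v) (M.dualTwist (cycloChar p))) 0) = d)
    (hmin : ∀ v : ↥S, v.1 ≠ pPrime p → finrank (ZMod p) (𝓛S v) +
      finrank (ZMod p) (levelCohomology ((localData S).𝒱 v)
        (Rep.res ((localData S).r v) (M.dualTwist (cycloChar p))) 0) ≤
      finrank (ZMod p) (levelCohomology ((localData S).𝒱 v) (Rep.res ((localData S).r v) M) 1))
    (hp : finrank (ZMod p) (𝓛S (⟨pPrime p, hpS⟩ : ↥S)) +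
      finrank (ZMod p) (levelCohomology ((localData S).𝒱 (⟨pPrime p, hpS⟩ : ↥S))
        (Rep.res ((localData S).r (⟨pPrime p, hpS⟩ : ↥S)) (M.dualTwist (cycloChar p))) 0) + e ≤
      finrank (ZMod p) (levelCohomology ((localData S).𝒱 (⟨pPrime p, hpS⟩ : ↥S))
        (Rep.res ((localData S).r (⟨pPrime p, hpS⟩ : ↥S)) M) 1))
    (hkill : ⨅ j, killedAt (M.dualTwist (cycloChar p))
      (Sel (localData S) (M.dualTwist (cycloChar p))
        (LocalCond.perp (localData S) (cycloChar p) trS M 𝓛S)) (Q j) = ⊥) :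
    finrank (ZMod p) (Sel (localData T) M (extendCond M 𝓛S)) ≤ r * d := by
  classical
  have hQT : ∀ j, Q j ∈ T ∧ Q j ∉ S := fun j => ⟨(hTQ (Q j)).2 (Or.inr ⟨j, rfl⟩), hQS j⟩
  -- the set of new places
  have hemb : Function.Injective (fun j : Fin r => (⟨Q j, (hQT j).1⟩ : ↥T)) :=
    fun i j hij => hQinj (congrArg Subtype.val hij)
  obtain ⟨Qs, hQsdef⟩ : ∃ Qs : Finset ↥T,
      Qs = Finset.univ.image (fun j : Fin r => (⟨Q j, (hQT j).1⟩ : ↥T)) := ⟨_, rfl⟩
  have hQs_card : Qs.card = r := by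
    rw [hQsdef, Finset.card_image_of_injective _ hemb, Finset.card_univ, Fintype.card_fin]
  have hmemQs : ∀ v : ↥T, v ∈ Qs ↔ v.1 ∉ S := by
    intro v
    rw [hQsdef, Finset.mem_image]
    constructor
    · rintro ⟨j, -, rfl⟩
      exact hQS j
    · intro hv
      rcases (hTQ v.1).1 v.2 with h | ⟨j, hj⟩
      · exact absurd h hv
      · exact ⟨j, Finset.mem_univ j, Subtype.ext hj⟩
  have hvp : (⟨pPrime p, hST hpS⟩ : ↥T) ∉ Qs := fun h => (hmemQs _).1 h hpS
  have hdual := dualSel_extend_eq_bot M hST hS.loc hT.loc 𝓛S Q hQT hkill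
  have key := finrank_Sel_le T M (hST hpS) hT (extendCond M 𝓛S) Qs (⟨pPrime p, hST hpS⟩ : ↥T) hvp
    d e hGEC h0 h0'
    (fun v hv => ⟨extendCond_of_not_mem M 𝓛S v ((hmemQs v).1 hv), hQd v ((hmemQs v).1 hv)⟩)
    (fun v hv hvp' => by
      have hvS : v.1 ∈ S := by
        by_contra h
        exact hv ((hmemQs v).2 h)
      have hne : v.1 ≠ pPrime p := fun h => hvp' (Subtype.ext h)
      have h1 := hmin (⟨v.1, hvS⟩ : ↥S) hne
      have h2 : extendCond (T := T) M 𝓛S v = 𝓛S (⟨v.1, hvS⟩ : ↥S) :=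
        extendCond_of_mem M hST 𝓛S v.1 hvS
      rw [h2]
      exact h1)
    (by
      have h2 : extendCond (T := T) M 𝓛S (⟨pPrime p, hST hpS⟩ : ↥T) =
          𝓛S (⟨pPrime p, hpS⟩ : ↥S) := extendCond_of_mem M hST 𝓛S (pPrime p) hpS
      rw [h2]
      exact hp)
    hdual
  exact le_of_le_of_eq key (congrArg (· * d) hQs_card)

/-- **H4, assembled, cardinality form**: `#Sel(T, M) ≤ p^{r d}`. -/
theorem card_Sel_extend_le (hpS : pPrime p ∈ S) (hST : S ⊆ T)
    (hS : PTHyp (localData S) (cycloChar p) trS) (hT : PTHyp (localData T) (cycloChar p) trT)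
    (𝓛S : LocalCond (localData S) M) {r : ℕ} (Q : Fin r → Nat.Primes)
    (hQinj : Function.Injective Q) (hQS : ∀ j, Q j ∉ S)
    (hTQ : ∀ q, q ∈ T ↔ q ∈ S ∨ ∃ j, Q j = q) (d e : ℕ)
    (hGEC : finrank (ZMod p) (levelCohomology (globalLevel T) M 1) =
      finrank (ZMod p) (levelCohomology (globalLevel T) M 2) +
        finrank (ZMod p) (levelCohomology (globalLevel T) M 0) + e)
    (h0 : finrank (ZMod p) (levelCohomology (globalLevel T) M 0) = 0)
    (h0' : finrank (ZMod p) (levelCohomology (globalLevel T) (M.dualTwist (cycloChar p)) 0) = 0)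
    (hQd : ∀ v : ↥T, v.1 ∉ S → finrank (ZMod p) (levelCohomology ((localData T).𝒱 v)
      (Rep.res ((localData T).r v) (M.dualTwist (cycloChar p))) 0) = d)
    (hmin : ∀ v : ↥S, v.1 ≠ pPrime p → finrank (ZMod p) (𝓛S v) +
      finrank (ZMod p) (levelCohomology ((localData S).𝒱 v)
        (Rep.res ((localData S).r v) (M.dualTwist (cycloChar p))) 0) ≤
      finrank (ZMod p) (levelCohomology ((localData S).𝒱 v) (Rep.res ((localData S).r v) M) 1))
    (hp : finrank (ZMod p) (𝓛S (⟨pPrime p, hpS⟩ : ↥S)) +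
      finrank (ZMod p) (levelCohomology ((localData S).𝒱 (⟨pPrime p, hpS⟩ : ↥S))
        (Rep.res ((localData S).r (⟨pPrime p, hpS⟩ : ↥S)) (M.dualTwist (cycloChar p))) 0) + e ≤
      finrank (ZMod p) (levelCohomology ((localData S).𝒱 (⟨pPrime p, hpS⟩ : ↥S))
        (Rep.res ((localData S).r (⟨pPrime p, hpS⟩ : ↥S)) M) 1))
    (hkill : ⨅ j, killedAt (M.dualTwist (cycloChar p))
      (Sel (localData S) (M.dualTwist (cycloChar p))
        (LocalCond.perp (localData S) (cycloChar p) trS M 𝓛S)) (Q j) = ⊥) :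
    Nat.card (Sel (localData T) M (extendCond M 𝓛S)) ≤ p ^ (r * d) := by
  have hfd := finiteDimensional_global_one T (hST hpS) M
  rw [Module.natCard_eq_pow_finrank (K := ZMod p), Nat.card_zmod]
  exact Nat.pow_le_pow_right (Fact.out : p.Prime).pos
    (finrank_Sel_extend_le M hpS hST hS hT 𝓛S Q hQinj hQS hTQ d e hGEC h0 h0' hQd hmin hp hkill)

end TwoLevel

end Fermat.Agent.S56.Asm.Count
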