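/-
S56 / block (H), leaf H5 part 2 (helper10): TAYLOR–WILES PRIMES + THE SELMER BOUND.

`M = ad0 ρbar p`, `M' = ad0' ρbar p`, `d = [k : 𝔽_p]`.  Given a PRIME-INDEXED family of local
conditions `𝓛 q ≤ H¹(G_q, M)` (only the `q ∈ Smin` matter) with the numerical properties
  (E-MIN)          `dim 𝓛_q + h⁰(G_q, M') ≤ h¹(G_q, M)`          (`q ∈ Smin`, `q ≠ p`),
  (E-SO/FLAT+LEC)  `dim 𝓛_p + h⁰(G_p, M') + 2d ≤ h¹(G_p, M)`,
the global Euler characteristic formula `h¹ = h² + h⁰ + 2d` for `M` over every `G_Σ`, `Σ ∋ p`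
(GEC) and Lemma H in helper23's form `SelectH.HypH ρbar`, there is `r` such that for every `n` there are
`r` distinct Taylor–Wiles primes `Q j` (`Q j ∉ S`, `Q j ≡ 1 mod p^(n+1)`, distinct Frobenius
eigenvalues) for which the classes of `H¹(G_{Smin ∪ Q}, M)` lying in `𝓛 q` at all `q ∈ Smin`
are contained in a finite set with at most `|k| ^ r` elements:

  `exists_tw_primes_selmer_bound`.

No deformation theory here: the statement is consumed by `Tan/Class.exists_surjective_…_of_classOf_mem`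
in `Asm/Top.lean`.
-/
import Mathlib
import Fermat.Agent.S56.TW.Hex
import Fermat.Agent.S56.Asm.Count
import Fermat.Agent.S56.Places.Level
import Fermat.Agent.S56.Loc.TWPrime
import Fermat.Agent.S56.PT.MainExport

set_option autoImplicit false
set_option linter.unusedSectionVars false
set_option linter.style.haveILetI false

open Polynomial

namespace Fermat.Agent.S56.Asm.Bound

open CategoryTheory groupCohomology Module ExtCitation Fermat.Agent.S55 Fermat.Agent.S55.Level
  Fermat.Agent.S55.Cone Fermat.Agent.S55.DualTwist Fermat.Agent.S55.Assembly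
  Fermat.Agent.S56.Ad Fermat.Agent.S56.PT.Inflation Fermat.Agent.S56.PT.Selmer
  Fermat.Agent.S56.PT.Instance Fermat.Agent.S56.Places.Level Fermat.Agent.S56.TW.Hex
  Fermat.Agent.S56.TW.SelectH Fermat.Agent.S56.Asm.Count

local notation "Qbar" => AlgebraicClosure ℚ
local notation "Γ" => (AlgebraicClosure ℚ ≃ₐ[ℚ] AlgebraicClosure ℚ)

variable {k : Type} [Field k] (ρbar : ResidualGaloisRep k)
  (p : ℕ) [hp : Fact p.Prime] [Algebra (ZMod p) k] [Module.Finite (ZMod p) k]

/-! ### `H⁰(G_Σ, M) = H⁰(G_Σ, M') = 0` -/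

theorem finrank_H0_global_ad0 (habs : ρbar.IsAbsolutelyIrreducible) (h2k : (2 : k) ≠ 0)
    (Sg : Finset Nat.Primes) [IsDiscrete (globalLevel Sg) (ad0 ρbar p)] :
    finrank (ZMod p) (levelCohomology (globalLevel Sg) (ad0 ρbar p) 0) = 0 := by
  rw [← (CF.levelH0Equiv (globalLevel Sg) (ad0 ρbar p)).finrank_eq]
  have : Subsingleton ↥((ad0 ρbar p).ρ.invariants) :=
    ⟨fun a b => Subtype.ext ((eq_zero_of_forall_ad0_ρ_eq ρbar p habs h2k a.1 a.2).trans
      (eq_zero_of_forall_ad0_ρ_eq ρbar p habs h2k b.1 b.2).symm)⟩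
  exact finrank_zero_of_subsingleton

theorem finrank_H0_global_ad0' (habs : ρbar.IsAbsolutelyIrreducible)
    (hTW : ∀ (K : Type) [Field K] [Algebra k K] (G : Subgroup Γ), G.index = 2 →
      ∀ W : Submodule K (ρbar.baseChange K).V,
        (∀ σ ∈ G, ∀ x ∈ W, (ρbar.baseChange K).ρ σ x ∈ W) → W = ⊥ ∨ W = ⊤)
    (hsplit : ∀ σ : Γ, ∃ α β : k, LinearMap.charpoly (ρbar.ρ σ) = (X - C α) * (X - C β))
    (h2k : (2 : k) ≠ 0)
    (Sg : Finset Nat.Primes) [IsDiscrete (globalLevel Sg) (ad0' ρbar p)] :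
    finrank (ZMod p) (levelCohomology (globalLevel Sg) (ad0' ρbar p) 0) = 0 := by
  rw [← (CF.levelH0Equiv (globalLevel Sg) (ad0' ρbar p)).finrank_eq]
  have : Subsingleton ↥((ad0' ρbar p).ρ.invariants) :=
    ⟨fun a b => Subtype.ext
      ((Fermat.Agent.S56.TW.SelectAd0.eq_zero_of_forall_ad0'_ρ_eq ρbar p habs hTW hsplit h2k
        a.1 a.2).trans
      (Fermat.Agent.S56.TW.SelectAd0.eq_zero_of_forall_ad0'_ρ_eq ρbar p habs hTW hsplit h2k
        b.1 b.2).symm)⟩
  exact finrank_zero_of_subsingleton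

/-! ### The bound -/

section Bound

variable (S Smin : Finset ℕ)
  [hM : ∀ q : Nat.Primes, IsDiscrete (localLevel (primeLocalToGlobal q))
    (Rep.res (primeLocalToGlobal q) (ad0 ρbar p))]
  [hM' : ∀ q : Nat.Primes, IsDiscrete (localLevel (primeLocalToGlobal q))
    (Rep.res (primeLocalToGlobal q) (ad0' ρbar p))]

set_option maxHeartbeats 1600000 in
/-- **Taylor–Wiles primes and the Selmer bound.** -/
theorem exists_tw_primes_selmer_bound (hp2 : p ≠ 2) (habs : ρbar.IsAbsolutelyIrreducible)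
    (hTW : ∀ (K : Type) [Field K] [Algebra k K] (G : Subgroup Γ), G.index = 2 →
      ∀ W : Submodule K (ρbar.baseChange K).V,
        (∀ σ ∈ G, ∀ x ∈ W, (ρbar.baseChange K).ρ σ x ∈ W) → W = ⊥ ∨ W = ⊤)
    (hsplit : ∀ σ : Γ, ∃ α β : k, LinearMap.charpoly (ρbar.ρ σ) = (X - C α) * (X - C β))
    (h2k : (2 : k) ≠ 0) (hpSmin : p ∈ Smin) (hSmin : Smin ⊆ S)
    (hmin : ∀ q : ℕ, q.Prime → q ≠ p → (q ∈ Smin ↔ ¬ ρbar.IsUnramifiedAt q))
    (𝓛 : ∀ q : Nat.Primes, Submodule (ZMod p) (levelCohomology (localLevel (primeLocalToGlobal q))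
      (Rep.res (primeLocalToGlobal q) (ad0 ρbar p)) 1))
    (hdim_min : ∀ q : Nat.Primes, (q : ℕ) ∈ Smin → q ≠ pPrime p →
      finrank (ZMod p) (𝓛 q) +
        finrank (ZMod p) (levelCohomology (localLevel (primeLocalToGlobal q))
          (Rep.res (primeLocalToGlobal q) (ad0' ρbar p)) 0) ≤
      finrank (ZMod p) (levelCohomology (localLevel (primeLocalToGlobal q))
        (Rep.res (primeLocalToGlobal q) (ad0 ρbar p)) 1))
    (hdim_p : finrank (ZMod p) (𝓛 (pPrime p)) +
        finrank (ZMod p) (levelCohomology (localLevel (primeLocalToGlobal (pPrime p)))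
          (Rep.res (primeLocalToGlobal (pPrime p)) (ad0' ρbar p)) 0) +
        2 * finrank (ZMod p) k ≤
      finrank (ZMod p) (levelCohomology (localLevel (primeLocalToGlobal (pPrime p)))
        (Rep.res (primeLocalToGlobal (pPrime p)) (ad0 ρbar p)) 1))
    (hGEC : ∀ (Sg : Finset Nat.Primes) [IsDiscrete (globalLevel Sg) (ad0 ρbar p)],
      pPrime p ∈ Sg →
      finrank (ZMod p) (levelCohomology (globalLevel Sg) (ad0 ρbar p) 1) =
        finrank (ZMod p) (levelCohomology (globalLevel Sg) (ad0 ρbar p) 2) +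
          finrank (ZMod p) (levelCohomology (globalLevel Sg) (ad0 ρbar p) 0) +
          2 * finrank (ZMod p) k)
    (hdet : (GaloisRepAdic.ofResidualGaloisRep ρbar).DetIsCyclotomic p) (hH : HypH ρbar) :
    ∃ r : ℕ, ∀ n : ℕ, ∃ Q : Fin r → Nat.Primes, Function.Injective Q ∧
      (∀ j, (Q j : ℕ) ∉ S ∧ IsTWPrime ρbar p n (Q j : ℕ)) ∧
      ∀ (Sg : Finset Nat.Primes),
        Sg = primesOf (Smin ∪ Finset.univ.image fun j => (Q j : ℕ)) →
        ∀ [IsDiscrete (globalLevel Sg) (ad0 ρbar p)],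
          ∃ Sel : Set (levelCohomology (globalLevel Sg) (ad0 ρbar p) 1), Finite Sel ∧
            Nat.card Sel ≤ Nat.card k ^ r ∧
            ∀ x : levelCohomology (globalLevel Sg) (ad0 ρbar p) 1,
              (∀ q : Nat.Primes, (q : ℕ) ∈ Smin → resAt Sg (ad0 ρbar p) q 1 x ∈ 𝓛 q) →
                x ∈ Sel := by
  classical
  -- the base level
  have hpS' : pPrime p ∈ primesOf Smin := pPrime_mem_primesOf hpSmin
  obtain ⟨hd0, hd0'⟩ := isDiscrete_ad0_of_hmin ρbar p hpSmin hmin Smin (Finset.Subset.refl _)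
  haveI := hd0
  haveI := hd0'
  haveI hμ0 : IsDiscrete (globalLevel (primesOf Smin)) (ofChar (k := ZMod p) (cycloChar p)) :=
    Fermat.Agent.S56.PT.MainExport.isDiscrete_mu (primesOf Smin) hpS'
  obtain ⟨tr₀, hPT₀⟩ := exists_tr_ptHyp (primesOf Smin) hp2 hpS'
  -- the local conditions at the base level and the dual Selmer group
  let 𝓛S : LocalCond (localData (primesOf Smin)) (ad0 ρbar p) := fun v => 𝓛 v.1
  have hfd' : FiniteDimensional (ZMod p)
      (levelCohomology (globalLevel (primesOf Smin)) (ad0' ρbar p) 1) :=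
    haveI : FiniteDimensional (ZMod p) (ad0' ρbar p) :=
      inferInstanceAs (FiniteDimensional (ZMod p) (Module.Dual (ZMod p) (ad0 ρbar p)))
    finiteDimensional_global_one (primesOf Smin) hpS' (ad0' ρbar p)
  refine ⟨finrank (ZMod p) ↥(Sel (localData (primesOf Smin)) (ad0' ρbar p)
    (LocalCond.perp (localData (primesOf Smin)) (cycloChar p) tr₀ (ad0 ρbar p) 𝓛S)), fun n => ?_⟩
  obtain ⟨Q, hQinj, hQnS, hQTW, hkill⟩ := exists_tw_family ρbar p habs hTW hsplit h2k hdet hH
    (primesOf Smin)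
    (Sel (localData (primesOf Smin)) (ad0' ρbar p)
      (LocalCond.perp (localData (primesOf Smin)) (cycloChar p) tr₀ (ad0 ρbar p) 𝓛S)) n
    (primesOf S)
  have hQS' : ∀ j, (Q j : ℕ) ∉ S := fun j h => hQnS j (mem_primesOf.2 h)
  refine ⟨Q, hQinj, fun j => ⟨hQS' j, (hQTW j).2⟩, ?_⟩
  rintro Sg rfl hdT
  -- the big level
  have hsub : Smin ⊆ Smin ∪ Finset.univ.image fun j => (Q j : ℕ) := Finset.subset_union_left
  have hST : primesOf Smin ⊆ primesOf (Smin ∪ Finset.univ.image fun j => (Q j : ℕ)) :=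
    primesOf_mono hsub
  obtain ⟨-, hdT'⟩ := isDiscrete_ad0_of_hmin ρbar p hpSmin hmin _ hsub
  haveI := hdT'
  haveI hμT : IsDiscrete (globalLevel (primesOf (Smin ∪ Finset.univ.image fun j => (Q j : ℕ))))
      (ofChar (k := ZMod p) (cycloChar p)) :=
    Fermat.Agent.S56.PT.MainExport.isDiscrete_mu _ (hST hpS')
  obtain ⟨trT, hPTT⟩ := exists_tr_ptHyp
    (primesOf (Smin ∪ Finset.univ.image fun j => (Q j : ℕ))) hp2 (hST hpS')
  have hQS : ∀ j, Q j ∉ primesOf Smin := fun j h =>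
    hQS' j (hSmin (mem_primesOf.1 h))
  have hTQ : ∀ q : Nat.Primes, q ∈ primesOf (Smin ∪ Finset.univ.image fun j => (Q j : ℕ)) ↔
      q ∈ primesOf Smin ∨ ∃ j, Q j = q := by
    intro q
    rw [mem_primesOf, Finset.mem_union, mem_primesOf, Finset.mem_image]
    constructor
    · rintro (h | ⟨j, -, hj⟩)
      · exact Or.inl h
      · exact Or.inr ⟨j, Subtype.ext hj⟩
    · rintro (h | ⟨j, hj⟩)
      · exact Or.inl h
      · exact Or.inr ⟨j, Finset.mem_univ j, congrArg Subtype.val hj⟩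
  -- the numerical inputs
  have hcard := card_Sel_extend_le (T := primesOf (Smin ∪ Finset.univ.image fun j => (Q j : ℕ)))
    (ad0 ρbar p) hpS' hST hPT₀ hPTT 𝓛S Q hQinj hQS hTQ (finrank (ZMod p) k)
    (2 * finrank (ZMod p) k) (hGEC _ (hST hpS'))
    (finrank_H0_global_ad0 ρbar p habs h2k _)
    (finrank_H0_global_ad0' ρbar p habs hTW hsplit h2k _)
    (fun v hv => by
      obtain ⟨j, hj⟩ := ((hTQ v.1).1 v.2).resolve_left hv
      have hq1 : p ∣ (v.1 : ℕ) - 1 := by
        rw [← hj]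
        exact dvd_trans (dvd_pow_self p (Nat.succ_ne_zero n)) (hQTW j).2.2.1
      have hqS : (v.1 : ℕ) ∉ Smin := fun h => hv (mem_primesOf.2 h)
      have hqp : (v.1 : ℕ) ≠ p := fun h => hqS (by rw [h]; exact hpSmin)
      have hur : ρbar.IsUnramifiedAt (v.1 : ℕ) := by
        by_contra h
        exact hqS ((hmin _ v.1.2 hqp).2 h)
      exact Fermat.Agent.S56.Loc.TWPrime.finrank_H0_ad0' ρbar p h2k hq1 hur
        (by rw [← hj]; exact (hQTW j).2.2.2))
    (fun v hv => hdim_min v.1 (mem_primesOf.1 v.2) hv)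
    hdim_p hkill
  have hfd : FiniteDimensional (ZMod p)
      (levelCohomology (globalLevel (primesOf (Smin ∪ Finset.univ.image fun j => (Q j : ℕ))))
        (ad0 ρbar p) 1) :=
    finiteDimensional_global_one _ (hST hpS') (ad0 ρbar p)
  refine ⟨(Sel (localData (primesOf (Smin ∪ Finset.univ.image fun j => (Q j : ℕ))))
      (ad0 ρbar p) (extendCond (ad0 ρbar p) 𝓛S) : Set _), ?_, ?_, ?_⟩
  · haveI : Finite (levelCohomology
        (globalLevel (primesOf (Smin ∪ Finset.univ.image fun j => (Q j : ℕ)))) (ad0 ρbar p) 1) :=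
      Module.finite_of_finite (ZMod p)
    exact Subtype.finite
  · have hk : Nat.card k = p ^ finrank (ZMod p) k := by
      rw [Module.natCard_eq_pow_finrank (K := ZMod p), Nat.card_zmod]
    rw [hk, ← pow_mul, mul_comm]
    exact hcard
  · intro x hx
    refine (mem_Sel _ x).2 fun v => ?_
    by_cases hv : v.1 ∈ primesOf Smin
    · have h1 : extendCond (T := primesOf (Smin ∪ Finset.univ.image fun j => (Q j : ℕ)))
          (ad0 ρbar p) 𝓛S v = 𝓛 v.1 := extendCond_of_mem (ad0 ρbar p) hST 𝓛S v.1 hv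
      have h2 : locH (localData (primesOf (Smin ∪ Finset.univ.image fun j => (Q j : ℕ))))
          (ad0 ρbar p) 1 x v =
          resAt (primesOf (Smin ∪ Finset.univ.image fun j => (Q j : ℕ))) (ad0 ρbar p) v.1 1 x :=
        locH_eq_resAt _ _ 1 x v
      rw [h1, h2]
      exact hx v.1 (mem_primesOf.1 hv)
    · rw [extendCond_of_not_mem (ad0 ρbar p) 𝓛S v hv]
      exact Submodule.mem_top

end Bound

end Fermat.Agent.S56.Asm.Bound
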