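/-
S56 / block (H), leaf H5 part 3 (helper10): THE TOP-LEVEL ASSEMBLY, generic in the deformation
condition.

`𝒟 T` a family of deformation conditions indexed by the ramification set `T : Finset ℕ` (the two
frozen instances: `strictOrdinaryCondition 𝒪 p T ρ ∧ unipotent on Smin`,
`flatCondition 𝒪 p T ρ ∧ unipotent on Smin`) such that lifts of type `𝒟 T` have cyclotomic
determinant, are unramified outside `T`, and `𝒟 T` is stable under the surjections `DQ.R ↠ k[ε]`.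

NAMED HYPOTHESES (the interfaces of the remaining blocks; `M = ad0 ρbar p`, `M' = ad0' ρbar p`):
* `𝓛 q ≤ H¹(G_q, M)`, a prime-indexed family of local conditions (values at `q ∈ Smin` matter);
* `TangentHyp` (block B6): for every `T ⊇ Smin`, every universal deformation ring `DQ` of type
  `𝒟 T` and every surjection `φ : DQ.R ↠ k[ε]`, the class `classOf DQ … φ ∈ H¹(G_T, M)` of
  `Tan/Class` restricts into `𝓛 q` at every `q ∈ Smin`;
* `hdim_min`, `hdim_p`, `hGEC`, `hH : SelectH.HypH ρbar` (Lemma H) : as in `Asm/Bound.exists_tw_primes_selmer_bound`.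

CONCLUSION `half`: one half of the frozen statement S56, verbatim, for the family `𝒟`.
-/
import Mathlib
import Fermat.Agent.S56.Asm.Bound
import Fermat.Agent.S56.Tan.Class

set_option autoImplicit false
set_option linter.unusedSectionVars false
set_option linter.style.haveILetI false

open Polynomial IsLocalRing

namespace Fermat.Agent.S56.Asm.Top

open CategoryTheory groupCohomology Module ExtCitation Fermat.Agent.S55 Fermat.Agent.S55.Level
  Fermat.Agent.S56.Ad Fermat.Agent.S56.PT.Inflation Fermat.Agent.S56.Places.Level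
  Fermat.Agent.S56.TW.Hex Fermat.Agent.S56.TW.SelectH Fermat.Agent.S56.Asm.Bound Fermat.Agent.S56.Ring
  Fermat.Agent.S56.Tan.Class Fermat.Agent.S53

local notation "Qbar" => AlgebraicClosure ℚ
local notation "Γ" => (AlgebraicClosure ℚ ≃ₐ[ℚ] AlgebraicClosure ℚ)

variable {𝒪 : Type} [CommRing 𝒪] [IsDomain 𝒪] [IsDiscreteValuationRing 𝒪]
  [IsAdicComplete (maximalIdeal 𝒪) 𝒪] [Finite (ResidueField 𝒪)]
  (p : ℕ) [hp : Fact p.Prime] [Algebra (ZMod p) (ResidueField 𝒪)]
  [Module.Finite (ZMod p) (ResidueField 𝒪)]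
  (ρbar : ResidualGaloisRep (ResidueField 𝒪))
  (Smin : Finset ℕ)
  [hM : ∀ q : Nat.Primes, IsDiscrete (localLevel (primeLocalToGlobal q))
    (Rep.res (primeLocalToGlobal q) (ad0 ρbar p))]

/-- **The hypothesis of block B6** for a family of deformation conditions `𝒟` and a prime-indexed
family of local conditions `𝓛`: the tangent classes of the universal deformation of type `𝒟 T`
(`T ⊇ Smin`) satisfy the local conditions at the primes of `Smin`. -/
def TangentHyp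
    (𝒟 : Finset ℕ → ∀ ⦃A : Type⦄ [CommRing A] [IsLocalRing A] [Algebra 𝒪 A],
      GaloisRepAdic A → Prop)
    (hpk : ((p : ℕ) : ResidueField 𝒪) = 0)
    (𝓛 : ∀ q : Nat.Primes, Submodule (ZMod p) (levelCohomology (localLevel (primeLocalToGlobal q))
      (Rep.res (primeLocalToGlobal q) (ad0 ρbar p)) 1)) : Prop :=
  ∀ (T : Finset ℕ), Smin ⊆ T → ∀ (DQ : GaloisRep.DeformationRingData 𝒪 ρbar (𝒟 T))
    [IsDiscrete (globalLevel (primesOf T)) (ad0 ρbar p)]
    (hdet : DQ.ρ.DetIsCyclotomic p)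
    (hur : ∀ q : Nat.Primes, q ∉ primesOf T → DQ.ρ.IsUnramifiedAt (q : ℕ)),
    letI := dualNumberAlgebra 𝒪
    ∀ φ : DQ.R →ₐ[𝒪] DualNumber (ResidueField 𝒪), Function.Surjective φ →
      ∀ q : Nat.Primes, (q : ℕ) ∈ Smin →
        resAt (primesOf T) (ad0 ρbar p) q 1 (classOf DQ p hpk hdet (primesOf T) hur φ) ∈ 𝓛 q

variable [hM' : ∀ q : Nat.Primes, IsDiscrete (localLevel (primeLocalToGlobal q))
    (Rep.res (primeLocalToGlobal q) (ad0' ρbar p))]

/-- **One half of S56** for a family of deformation conditions `𝒟`, from the named hypotheses. -/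
theorem half (hp2 : p ≠ 2) (hp𝒪 : (p : 𝒪) ∈ maximalIdeal 𝒪)
    (habs : ρbar.IsAbsolutelyIrreducible)
    (hsplit : ∀ σ : Γ, ∃ α β : ResidueField 𝒪,
      LinearMap.charpoly (ρbar.ρ σ) = (X - C α) * (X - C β))
    (hTW : ∀ (K : Type) [Field K] [Algebra (ResidueField 𝒪) K] (G : Subgroup Γ), G.index = 2 →
      ∀ V : Submodule K (ρbar.baseChange K).V,
        (∀ σ ∈ G, ∀ x ∈ V, (ρbar.baseChange K).ρ σ x ∈ V) → V = ⊥ ∨ V = ⊤)
    (S : Finset ℕ) (hpSmin : p ∈ Smin) (hSmin : Smin ⊆ S)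
    (hmin : ∀ q : ℕ, q.Prime → q ≠ p → (q ∈ Smin ↔ ¬ ρbar.IsUnramifiedAt q))
    (𝒟 : Finset ℕ → ∀ ⦃A : Type⦄ [CommRing A] [IsLocalRing A] [Algebra 𝒪 A],
      GaloisRepAdic A → Prop)
    (hdet𝒟 : ∀ (T : Finset ℕ) (DQ : GaloisRep.DeformationRingData 𝒪 ρbar (𝒟 T)),
      DQ.ρ.DetIsCyclotomic p)
    (hur𝒟 : ∀ (T : Finset ℕ) (DQ : GaloisRep.DeformationRingData 𝒪 ρbar (𝒟 T)) (q : ℕ),
      q.Prime → q ∉ T → DQ.ρ.IsUnramifiedAt q)
    (hbc𝒟 : ∀ (T : Finset ℕ) (DQ : GaloisRep.DeformationRingData 𝒪 ρbar (𝒟 T)),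
      letI := dualNumberAlgebra 𝒪
      ∀ φ : DQ.R →ₐ[𝒪] DualNumber (ResidueField 𝒪), Function.Surjective φ →
        𝒟 T (DQ.ρ.baseChangeAlong (φ : DQ.R →+* DualNumber (ResidueField 𝒪))
          (isLocalHom_algHom_dualNumber DQ φ)))
    (hpk : ((p : ℕ) : ResidueField 𝒪) = 0)
    (𝓛 : ∀ q : Nat.Primes, Submodule (ZMod p) (levelCohomology (localLevel (primeLocalToGlobal q))
      (Rep.res (primeLocalToGlobal q) (ad0 ρbar p)) 1))
    (hB6 : TangentHyp p ρbar Smin 𝒟 hpk 𝓛)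
    (hdim_min : ∀ q : Nat.Primes, (q : ℕ) ∈ Smin → q ≠ pPrime p →
      finrank (ZMod p) (𝓛 q) +
        finrank (ZMod p) (levelCohomology (localLevel (primeLocalToGlobal q))
          (Rep.res (primeLocalToGlobal q) (ad0' ρbar p)) 0) ≤
      finrank (ZMod p) (levelCohomology (localLevel (primeLocalToGlobal q))
        (Rep.res (primeLocalToGlobal q) (ad0 ρbar p)) 1))
    (hdim_p : finrank (ZMod p) (𝓛 (pPrime p)) +
        finrank (ZMod p) (levelCohomology (localLevel (primeLocalToGlobal (pPrime p)))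
          (Rep.res (primeLocalToGlobal (pPrime p)) (ad0' ρbar p)) 0) +
        2 * finrank (ZMod p) (ResidueField 𝒪) ≤
      finrank (ZMod p) (levelCohomology (localLevel (primeLocalToGlobal (pPrime p)))
        (Rep.res (primeLocalToGlobal (pPrime p)) (ad0 ρbar p)) 1))
    (hGEC : ∀ (Sg : Finset Nat.Primes) [IsDiscrete (globalLevel Sg) (ad0 ρbar p)],
      pPrime p ∈ Sg →
      finrank (ZMod p) (levelCohomology (globalLevel Sg) (ad0 ρbar p) 1) =
        finrank (ZMod p) (levelCohomology (globalLevel Sg) (ad0 ρbar p) 2) +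
          finrank (ZMod p) (levelCohomology (globalLevel Sg) (ad0 ρbar p) 0) +
          2 * finrank (ZMod p) (ResidueField 𝒪))
    (hdet : (GaloisRepAdic.ofResidualGaloisRep ρbar).DetIsCyclotomic p) (hH : HypH ρbar) :
    ∃ r : ℕ, ∀ n : ℕ, ∃ qv : Fin r → ℕ, Function.Injective qv ∧
      (∀ i, (qv i).Prime ∧ qv i ∉ S ∧ p ^ (n + 1) ∣ qv i - 1) ∧
      (∀ i, ∀ P : ValuationSubring Qbar, P.LiesOverPrime (qv i) →
        ∀ φ : Γ, P.IsFrobeniusAt φ (qv i) →
          ∃ α β : ResidueField 𝒪, α ≠ β ∧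
            LinearMap.charpoly (ρbar.ρ φ) = (X - C α) * (X - C β)) ∧
      ∀ DQ : GaloisRep.DeformationRingData 𝒪 ρbar (𝒟 (Smin ∪ Finset.univ.image qv)),
        ∃ γ : MvPowerSeries (Fin r) 𝒪 →ₐ[𝒪] DQ.R, Function.Surjective γ := by
  classical
  have h2k : (2 : ResidueField 𝒪) ≠ 0 := by
    haveI : CharP (ResidueField 𝒪) p :=
      (CharP.charP_iff_prime_eq_zero hp.out).mpr hpk
    intro h
    have h2 : ((2 : ℕ) : ResidueField 𝒪) = 0 := by exact_mod_cast h
    have hdvd := (CharP.cast_eq_zero_iff (ResidueField 𝒪) p 2).1 h2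
    have := hp.out.two_le
    have := Nat.le_of_dvd (by norm_num) hdvd
    omega
  have h3 : 3 ≤ Nat.card (ResidueField 𝒪) := three_le_card_residueField hp2 hp𝒪
  obtain ⟨r, hr⟩ := exists_tw_primes_selmer_bound ρbar p S Smin hp2 habs hTW hsplit h2k hpSmin
    hSmin hmin 𝓛 hdim_min hdim_p hGEC hdet hH
  refine ⟨r, fun n => ?_⟩
  obtain ⟨Q, hQinj, hQTW, hSel⟩ := hr n
  refine ⟨fun j => (Q j : ℕ), fun i j hij => hQinj (Subtype.ext hij),
    fun i => ⟨(Q i).2, (hQTW i).1, (hQTW i).2.2.1⟩, fun i => (hQTW i).2.2.2, fun DQ => ?_⟩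
  have hsub : Smin ⊆ Smin ∪ Finset.univ.image fun j => (Q j : ℕ) := Finset.subset_union_left
  haveI hdT : IsDiscrete (globalLevel (primesOf (Smin ∪ Finset.univ.image fun j => (Q j : ℕ))))
      (ad0 ρbar p) := (isDiscrete_ad0_of_hmin ρbar p hpSmin hmin _ hsub).1
  obtain ⟨Sel, hfin, hcard, hmemSel⟩ := hSel _ rfl
  haveI := hfin
  have hur : ∀ q : Nat.Primes, q ∉ primesOf (Smin ∪ Finset.univ.image fun j => (Q j : ℕ)) →
      DQ.ρ.IsUnramifiedAt (q : ℕ) := fun q hq =>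
    hur𝒟 _ DQ q q.2 fun h => hq (mem_primesOf.2 h)
  exact exists_surjective_of_classOf_mem DQ p hpk (hdet𝒟 _ DQ)
    (primesOf (Smin ∪ Finset.univ.image fun j => (Q j : ℕ))) hur (hbc𝒟 _ DQ) Sel
    (fun φ hφ => hmemSel _ fun q hq => hB6 _ hsub DQ (hdet𝒟 _ DQ) hur φ hφ q hq) h3 r hcard

end Fermat.Agent.S56.Asm.Top
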