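/-
S56 / block (H), leaf H5 part 4 (helper10): THE FROZEN STATEMENT FROM THE NAMED HYPOTHESES.

`result_of_hyps` : the conclusion of the frozen statement S56 (both halves, verbatim) from
`Asm/Top.half` applied to the two frozen families of deformation conditions
  `𝒟so T ρ := strictOrdinaryCondition 𝒪 p T ρ ∧ ∀ q ∈ Smin, q.Prime → q ≠ p → unipotent at q`,
  `𝒟fl T ρ := flatCondition 𝒪 p T ρ ∧ ∀ q ∈ Smin, q.Prime → q ≠ p → unipotent at q`,
for an arbitrary `𝔽_p`-algebra structure on the residue field (in `Fermat/Agent/S56.lean` it is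
`ZMod.algebra _ p`).  What is left for `S56.lean`: the two families of local conditions `𝓛so`,
`𝓛fl` with their `TangentHyp` (B6) and dimension bounds (E-MIN, E-SO/FLAT + LEC), `hGEC` (D5) and
`hH` (Lemma H).
-/
import Mathlib
import Fermat.Agent.S56.Asm.Top

set_option autoImplicit false
set_option linter.unusedSectionVars false
set_option linter.style.haveILetI false

open Polynomial IsLocalRing

namespace Fermat.Agent.S56.Asm.Final

open CategoryTheory groupCohomology Module ExtCitation Fermat.Agent.S55 Fermat.Agent.S55.Level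
  Fermat.Agent.S56.Ad Fermat.Agent.S56.PT.Inflation Fermat.Agent.S56.Places.Level
  Fermat.Agent.S56.TW.SelectH Fermat.Agent.S56.Asm.Top Fermat.Agent.S56.Ring Fermat.Agent.S53

local notation "Qbar" => AlgebraicClosure ℚ
local notation "Γ" => (AlgebraicClosure ℚ ≃ₐ[ℚ] AlgebraicClosure ℚ)

variable {𝒪 : Type} [CommRing 𝒪] [IsDomain 𝒪] [IsDiscreteValuationRing 𝒪]
  [IsAdicComplete (maximalIdeal 𝒪) 𝒪] [Finite (ResidueField 𝒪)]

/-- the strict-ordinary family of deformation conditions of S56 -/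
def 𝒟so (𝒪 : Type) [CommRing 𝒪] (p : ℕ) (Smin : Finset ℕ) (T : Finset ℕ) :
    ∀ ⦃A : Type⦄ [CommRing A] [IsLocalRing A] [Algebra 𝒪 A], GaloisRepAdic A → Prop :=
  fun _A _ _ _ ρ => GaloisRep.strictOrdinaryCondition 𝒪 p T ρ ∧
    ∀ q ∈ Smin, q.Prime → q ≠ p → ρ.IsUnipotentOnInertiaAt q

/-- the flat family of deformation conditions of S56 -/
def 𝒟fl (𝒪 : Type) [CommRing 𝒪] (p : ℕ) (Smin : Finset ℕ) (T : Finset ℕ) :
    ∀ ⦃A : Type⦄ [CommRing A] [IsLocalRing A] [Algebra 𝒪 A], GaloisRepAdic A → Prop :=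
  fun _A _ _ _ ρ => GaloisRep.flatCondition 𝒪 p T ρ ∧
    ∀ q ∈ Smin, q.Prime → q ≠ p → ρ.IsUnipotentOnInertiaAt q

variable (p : ℕ) [hp : Fact p.Prime] [Algebra (ZMod p) (ResidueField 𝒪)]
  [Module.Finite (ZMod p) (ResidueField 𝒪)]
  (ρbar : ResidualGaloisRep (ResidueField 𝒪))
  (Smin : Finset ℕ)
  [hM : ∀ q : Nat.Primes, IsDiscrete (localLevel (primeLocalToGlobal q))
    (Rep.res (primeLocalToGlobal q) (ad0 ρbar p))]
  [hM' : ∀ q : Nat.Primes, IsDiscrete (localLevel (primeLocalToGlobal q))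
    (Rep.res (primeLocalToGlobal q) (ad0' ρbar p))]

/-- **The frozen statement S56 from the named hypotheses.** -/
theorem result_of_hyps (hp2 : p ≠ 2) (hp𝒪 : (p : 𝒪) ∈ maximalIdeal 𝒪)
    (habs : ρbar.IsAbsolutelyIrreducible)
    (hdet : (GaloisRepAdic.ofResidualGaloisRep ρbar).DetIsCyclotomic p)
    (hsplit : ∀ σ : Γ, ∃ α β : ResidueField 𝒪,
      LinearMap.charpoly (ρbar.ρ σ) = (X - C α) * (X - C β))
    (hTW : ∀ (K : Type) [Field K] [Algebra (ResidueField 𝒪) K] (G : Subgroup Γ), G.index = 2 →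
      ∀ V : Submodule K (ρbar.baseChange K).V,
        (∀ σ ∈ G, ∀ x ∈ V, (ρbar.baseChange K).ρ σ x ∈ V) → V = ⊥ ∨ V = ⊤)
    (S : Finset ℕ) (hpSmin : p ∈ Smin) (hSmin : Smin ⊆ S)
    (hmin : ∀ q : ℕ, q.Prime → q ≠ p → (q ∈ Smin ↔ ¬ ρbar.IsUnramifiedAt q))
    (hpk : ((p : ℕ) : ResidueField 𝒪) = 0)
    (𝓛so 𝓛fl : ∀ q : Nat.Primes, Submodule (ZMod p)
      (levelCohomology (localLevel (primeLocalToGlobal q))
        (Rep.res (primeLocalToGlobal q) (ad0 ρbar p)) 1))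
    (hB6so : TangentHyp p ρbar Smin (𝒟so 𝒪 p Smin) hpk 𝓛so)
    (hB6fl : TangentHyp p ρbar Smin (𝒟fl 𝒪 p Smin) hpk 𝓛fl)
    (hdim_min_so : ∀ q : Nat.Primes, (q : ℕ) ∈ Smin → q ≠ pPrime p →
      finrank (ZMod p) (𝓛so q) +
        finrank (ZMod p) (levelCohomology (localLevel (primeLocalToGlobal q))
          (Rep.res (primeLocalToGlobal q) (ad0' ρbar p)) 0) ≤
      finrank (ZMod p) (levelCohomology (localLevel (primeLocalToGlobal q))
        (Rep.res (primeLocalToGlobal q) (ad0 ρbar p)) 1))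
    (hdim_min_fl : ∀ q : Nat.Primes, (q : ℕ) ∈ Smin → q ≠ pPrime p →
      finrank (ZMod p) (𝓛fl q) +
        finrank (ZMod p) (levelCohomology (localLevel (primeLocalToGlobal q))
          (Rep.res (primeLocalToGlobal q) (ad0' ρbar p)) 0) ≤
      finrank (ZMod p) (levelCohomology (localLevel (primeLocalToGlobal q))
        (Rep.res (primeLocalToGlobal q) (ad0 ρbar p)) 1))
    (hdim_p_so : finrank (ZMod p) (𝓛so (pPrime p)) +
        finrank (ZMod p) (levelCohomology (localLevel (primeLocalToGlobal (pPrime p)))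
          (Rep.res (primeLocalToGlobal (pPrime p)) (ad0' ρbar p)) 0) +
        2 * finrank (ZMod p) (ResidueField 𝒪) ≤
      finrank (ZMod p) (levelCohomology (localLevel (primeLocalToGlobal (pPrime p)))
        (Rep.res (primeLocalToGlobal (pPrime p)) (ad0 ρbar p)) 1))
    (hdim_p_fl : finrank (ZMod p) (𝓛fl (pPrime p)) +
        finrank (ZMod p) (levelCohomology (localLevel (primeLocalToGlobal (pPrime p)))
          (Rep.res (primeLocalToGlobal (pPrime p)) (ad0' ρbar p)) 0) +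
        2 * finrank (ZMod p) (ResidueField 𝒪) ≤
      finrank (ZMod p) (levelCohomology (localLevel (primeLocalToGlobal (pPrime p)))
        (Rep.res (primeLocalToGlobal (pPrime p)) (ad0 ρbar p)) 1))
    (hGEC : ∀ (Sg : Finset Nat.Primes) [IsDiscrete (globalLevel Sg) (ad0 ρbar p)],
      pPrime p ∈ Sg →
      finrank (ZMod p) (levelCohomology (globalLevel Sg) (ad0 ρbar p) 1) =
        finrank (ZMod p) (levelCohomology (globalLevel Sg) (ad0 ρbar p) 2) +
          finrank (ZMod p) (levelCohomology (globalLevel Sg) (ad0 ρbar p) 0) +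
          2 * finrank (ZMod p) (ResidueField 𝒪))
    (hH : HypH ρbar) :
    (∃ r : ℕ, ∀ n : ℕ, ∃ qv : Fin r → ℕ, Function.Injective qv ∧
      (∀ i, (qv i).Prime ∧ qv i ∉ S ∧ p ^ (n + 1) ∣ qv i - 1) ∧
      (∀ i, ∀ P : ValuationSubring (AlgebraicClosure ℚ), P.LiesOverPrime (qv i) →
        ∀ φ : AlgebraicClosure ℚ ≃ₐ[ℚ] AlgebraicClosure ℚ, P.IsFrobeniusAt φ (qv i) →
          ∃ α β : ResidueField 𝒪, α ≠ β ∧ LinearMap.charpoly (ρbar.ρ φ) = (X - C α) * (X - C β)) ∧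
      ∀ DQ : GaloisRep.DeformationRingData 𝒪 ρbar (fun _A _ _ _ ρ =>
          GaloisRep.strictOrdinaryCondition 𝒪 p (Smin ∪ Finset.univ.image qv) ρ ∧
            ∀ q ∈ Smin, q.Prime → q ≠ p → ρ.IsUnipotentOnInertiaAt q),
        ∃ γ : MvPowerSeries (Fin r) 𝒪 →ₐ[𝒪] DQ.R, Function.Surjective γ) ∧
    (∃ r : ℕ, ∀ n : ℕ, ∃ qv : Fin r → ℕ, Function.Injective qv ∧
      (∀ i, (qv i).Prime ∧ qv i ∉ S ∧ p ^ (n + 1) ∣ qv i - 1) ∧
      (∀ i, ∀ P : ValuationSubring (AlgebraicClosure ℚ), P.LiesOverPrime (qv i) →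
        ∀ φ : AlgebraicClosure ℚ ≃ₐ[ℚ] AlgebraicClosure ℚ, P.IsFrobeniusAt φ (qv i) →
          ∃ α β : ResidueField 𝒪, α ≠ β ∧ LinearMap.charpoly (ρbar.ρ φ) = (X - C α) * (X - C β)) ∧
      ∀ DQ : GaloisRep.DeformationRingData 𝒪 ρbar (fun _A _ _ _ ρ =>
          GaloisRep.flatCondition 𝒪 p (Smin ∪ Finset.univ.image qv) ρ ∧
            ∀ q ∈ Smin, q.Prime → q ≠ p → ρ.IsUnipotentOnInertiaAt q),
        ∃ γ : MvPowerSeries (Fin r) 𝒪 →ₐ[𝒪] DQ.R, Function.Surjective γ) := by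
  refine ⟨?_, ?_⟩
  · exact half p ρbar Smin hp2 hp𝒪 habs hsplit hTW S hpSmin hSmin hmin (𝒟so 𝒪 p Smin)
      (fun T DQ => DQ.isOfType.1.1) (fun T DQ q hq hqT => DQ.isOfType.1.2.2 q hq hqT)
      (fun T DQ =>
        letI := dualNumberAlgebra 𝒪
        fun φ _ => strictOrdinary_unipotent_baseChangeAlong
          (φ : DQ.R →+* DualNumber (ResidueField 𝒪)) (isLocalHom_algHom_dualNumber DQ φ) DQ.ρ
          DQ.isOfType)
      hpk 𝓛so hB6so hdim_min_so hdim_p_so hGEC hdet hH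
  · exact half p ρbar Smin hp2 hp𝒪 habs hsplit hTW S hpSmin hSmin hmin (𝒟fl 𝒪 p Smin)
      (fun T DQ => DQ.isOfType.1.1) (fun T DQ q hq hqT => DQ.isOfType.1.2.2 q hq hqT)
      (fun T DQ =>
        letI := dualNumberAlgebra 𝒪
        fun φ hs => flat_unipotent_baseChangeAlong_of_surjective
          (φ : DQ.R →+* DualNumber (ResidueField 𝒪)) (isLocalHom_algHom_dualNumber DQ φ) DQ.ρ hs
          DQ.isOfType)
      hpk 𝓛fl hB6fl hdim_min_fl hdim_p_fl hGEC hdet hH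

end Fermat.Agent.S56.Asm.Final
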