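/-
S56 / block (H), leaf H5 part 5 (helper10): PLUGGING THE LOCAL LEAVES INTO `Asm/Final`.

The prime-indexed family of local conditions is
  `fam 𝓛p q := if q = pPrime p then 𝓛p else minCondQ ρbar p q`     (`Tan/Cond.glueCond`)
for a condition `𝓛p ≤ H¹(G_p, ad⁰ρ̄)` at `p` (`soCond` for the strict-ordinary half, helper17's flat
condition for the flat half).  For this family:
* `tangentHyp_so_fam`, `tangentHyp_fl_fam` : `Asm/Top.TangentHyp` from the lift-form membership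
  (`Tan/Selmer.TangentAt`) of `𝓛p` at `p` (E-MIN `Loc/MinimalPrime` supplies the primes `q ≠ p`);
* `hdim_min_fam` : `hdim_min` of `Asm/Bound` (E-MIN dimension formula);
* `hdim_p_fam` : `hdim_p` of `Asm/Bound` from the same inequality for `𝓛p`.

`result_of_local` : the frozen statement S56 from
  `hLEC` (local Euler characteristic formula at `p`, block LEC),
  a flat condition `𝓛pfl` at `p` with its lift-form membership and its dimension bound (FLAT),
  `hGEC` (global Euler characteristic formula for `ad⁰ρ̄`, block GEC/D5) and `hH` (Lemma H).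
The strict-ordinary condition at `p` is `soCond` (E-SO, `Loc/StrictOrdCond` + `Tan/SelmerSOAt`).
-/
import Mathlib
import Fermat.Agent.S56.Asm.Final
import Fermat.Agent.S56.Tan.Cond
import Fermat.Agent.S56.Tan.SelmerSOAt
import Fermat.Agent.S56.Loc.MinimalPrime

set_option autoImplicit false
set_option linter.unusedSectionVars false
set_option linter.style.haveILetI false

open Polynomial IsLocalRing

namespace Fermat.Agent.S56.Asm.Plug

open CategoryTheory groupCohomology Module ExtCitation Fermat.Agent.S55 Fermat.Agent.S55.Level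
  Fermat.Agent.S56.Ad Fermat.Agent.S56.PT.Inflation Fermat.Agent.S56.Places.Level
  Fermat.Agent.S56.TW.SelectH Fermat.Agent.S56.Asm.Top Fermat.Agent.S56.Asm.Final
  Fermat.Agent.S56.Ring Fermat.Agent.S53 Fermat.Agent.S56.Tan.Selmer Fermat.Agent.S56.Tan.Glue
  Fermat.Agent.S56.Tan.Cond Fermat.Agent.S56.Loc.MinimalPrime Fermat.Agent.S56.Loc.StrictOrdCond

local notation "Qbar" => AlgebraicClosure ℚ
local notation "Γ" => (AlgebraicClosure ℚ ≃ₐ[ℚ] AlgebraicClosure ℚ)

variable {𝒪 : Type} [CommRing 𝒪] [IsDomain 𝒪] [IsDiscreteValuationRing 𝒪]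
  [IsAdicComplete (maximalIdeal 𝒪) 𝒪] [Finite (ResidueField 𝒪)]
  (p : ℕ) [hp : Fact p.Prime] [Algebra (ZMod p) (ResidueField 𝒪)]
  [Module.Finite (ZMod p) (ResidueField 𝒪)]
  (ρbar : ResidualGaloisRep (ResidueField 𝒪))
  (Smin : Finset ℕ)
  [hM : ∀ q : Nat.Primes, IsDiscrete (localLevel (primeLocalToGlobal q))
    (Rep.res (primeLocalToGlobal q) (ad0 ρbar p))]
  [hM' : ∀ q : Nat.Primes, IsDiscrete (localLevel (primeLocalToGlobal q))
    (Rep.res (primeLocalToGlobal q) (ad0' ρbar p))]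

/-- The prime-indexed family of local conditions: `𝓛p` at `p`, the minimal condition elsewhere. -/
noncomputable def fam
    (𝓛p : Submodule (ZMod p) (levelCohomology (localLevel (primeLocalToGlobal (pPrime p)))
      (Rep.res (primeLocalToGlobal (pPrime p)) (ad0 ρbar p)) 1)) :
    ∀ q : Nat.Primes, Submodule (ZMod p) (levelCohomology (localLevel (primeLocalToGlobal q))
      (Rep.res (primeLocalToGlobal q) (ad0 ρbar p)) 1) :=
  glueCond (ad0 ρbar p) 𝓛p (fun q => minCondQ ρbar p q)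

variable (𝓛p : Submodule (ZMod p) (levelCohomology (localLevel (primeLocalToGlobal (pPrime p)))
      (Rep.res (primeLocalToGlobal (pPrime p)) (ad0 ρbar p)) 1))

/-- the lift-form membership of the minimal condition at the primes of `Smin` other than `p` -/
theorem tangentAt_minCondQ (h2 : (2 : ResidueField 𝒪) ≠ 0)
    (hmin : ∀ q : ℕ, q.Prime → q ≠ p → (q ∈ Smin ↔ ¬ ρbar.IsUnramifiedAt q))
    (hpk : ((p : ℕ) : ResidueField 𝒪) = 0) (q : Nat.Primes) (hq : (q : ℕ) ∈ Smin)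
    (hqp : (q : ℕ) ≠ p) :
    TangentAt ρbar p hpk q (fun ρA => ρA.IsUnipotentOnInertiaAt (q : ℕ)) (minCondQ ρbar p q) :=
  tangentAt_of_levelH1π_mem q _ _ fun _ρA m hdetA hC z hz =>
    levelH1π_mem_minCondQ_of_lift ρbar p q h2 hpk hqp ((hmin q q.2 hqp).1 hq) m hdetA hC z hz

/-- **B6, strict-ordinary half**, for the family `fam 𝓛p`. -/
theorem tangentHyp_so_fam (h2 : (2 : ResidueField 𝒪) ≠ 0)
    (hmin : ∀ q : ℕ, q.Prime → q ≠ p → (q ∈ Smin ↔ ¬ ρbar.IsUnramifiedAt q))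
    (hpk : ((p : ℕ) : ResidueField 𝒪) = 0)
    (htan : TangentAt ρbar p hpk (pPrime p) (fun ρA => ρA.IsStrictOrdinaryAt p) 𝓛p) :
    TangentHyp p ρbar Smin (𝒟so 𝒪 p Smin) hpk (fam p ρbar 𝓛p) := by
  intro T _ DQ _ hdet hur
  letI := dualNumberAlgebra 𝒪
  intro φ _ q hq
  exact tangentHyp_so_glueCond (Smin := Smin) 𝓛p (fun q => minCondQ ρbar p q) htan
    (fun q hq hqp => tangentAt_minCondQ p ρbar Smin h2 hmin hpk q hq hqp) T DQ hdet hur φ q hq

/-- **B6, flat half**, for the family `fam 𝓛p`. -/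
theorem tangentHyp_fl_fam (h2 : (2 : ResidueField 𝒪) ≠ 0)
    (hmin : ∀ q : ℕ, q.Prime → q ≠ p → (q ∈ Smin ↔ ¬ ρbar.IsUnramifiedAt q))
    (hpk : ((p : ℕ) : ResidueField 𝒪) = 0)
    (htan : TangentAt ρbar p hpk (pPrime p) (fun ρA => ρA.IsFlatAt p) 𝓛p) :
    TangentHyp p ρbar Smin (𝒟fl 𝒪 p Smin) hpk (fam p ρbar 𝓛p) := by
  intro T _ DQ _ hdet hur
  letI := dualNumberAlgebra 𝒪
  intro φ hφ q hq
  exact tangentHyp_flat_glueCond (Smin := Smin) 𝓛p (fun q => minCondQ ρbar p q) htan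
    (fun q hq hqp => tangentAt_minCondQ p ρbar Smin h2 hmin hpk q hq hqp) T DQ hdet hur φ hφ q hq

/-- **`hdim_min`** for the family `fam 𝓛p` (E-MIN). -/
theorem hdim_min_fam (hp2 : p ≠ 2) (hpSmin : p ∈ Smin)
    (hmin : ∀ q : ℕ, q.Prime → q ≠ p → (q ∈ Smin ↔ ¬ ρbar.IsUnramifiedAt q))
    (q : Nat.Primes) (hq : (q : ℕ) ∈ Smin) (hqp : q ≠ pPrime p) :
    finrank (ZMod p) (fam p ρbar 𝓛p q) +
        finrank (ZMod p) (levelCohomology (localLevel (primeLocalToGlobal q))
          (Rep.res (primeLocalToGlobal q) (ad0' ρbar p)) 0) ≤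
      finrank (ZMod p) (levelCohomology (localLevel (primeLocalToGlobal q))
        (Rep.res (primeLocalToGlobal q) (ad0 ρbar p)) 1) := by
  have hpS' : pPrime p ∈ primesOf Smin := pPrime_mem_primesOf hpSmin
  obtain ⟨hd0, hd0'⟩ := isDiscrete_ad0_of_hmin ρbar p hpSmin hmin Smin (Finset.Subset.refl _)
  haveI := hd0
  haveI := hd0'
  haveI : IsDiscrete (globalLevel (primesOf Smin)) (ofChar (k := ZMod p) (cycloChar p)) :=
    Fermat.Agent.S56.PT.MainExport.isDiscrete_mu (primesOf Smin) hpS'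
  have h := finrank_minCondQ_add_le ρbar p (primesOf Smin) hp2 hpS' q (mem_primesOf.2 hq)
  unfold fam
  rw [glueCond_of_ne 𝓛p (fun q => minCondQ ρbar p q) hqp]
  exact h

/-- **`hdim_p`** for the family `fam 𝓛p`, from the same inequality for `𝓛p`. -/
theorem hdim_p_fam
    (h : finrank (ZMod p) 𝓛p +
        finrank (ZMod p) (levelCohomology (localLevel (primeLocalToGlobal (pPrime p)))
          (Rep.res (primeLocalToGlobal (pPrime p)) (ad0' ρbar p)) 0) +
        2 * finrank (ZMod p) (ResidueField 𝒪) ≤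
      finrank (ZMod p) (levelCohomology (localLevel (primeLocalToGlobal (pPrime p)))
        (Rep.res (primeLocalToGlobal (pPrime p)) (ad0 ρbar p)) 1)) :
    finrank (ZMod p) (fam p ρbar 𝓛p (pPrime p)) +
        finrank (ZMod p) (levelCohomology (localLevel (primeLocalToGlobal (pPrime p)))
          (Rep.res (primeLocalToGlobal (pPrime p)) (ad0' ρbar p)) 0) +
        2 * finrank (ZMod p) (ResidueField 𝒪) ≤
      finrank (ZMod p) (levelCohomology (localLevel (primeLocalToGlobal (pPrime p)))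
        (Rep.res (primeLocalToGlobal (pPrime p)) (ad0 ρbar p)) 1) := by
  unfold fam
  rw [glueCond_pPrime]
  exact h

/-- **The frozen statement S56 from the four remaining inputs**: `hLEC` (LEC at `p`), the flat
condition at `p` with its membership `hfl_tan` and dimension bound `hfl_dim` (FLAT), `hGEC` (D5),
`hH` (Lemma H). -/
theorem result_of_local (hp2 : p ≠ 2) (hp𝒪 : (p : 𝒪) ∈ maximalIdeal 𝒪)
    (habs : ρbar.IsAbsolutelyIrreducible)
    (hdet : (GaloisRepAdic.ofResidualGaloisRep ρbar).DetIsCyclotomic p)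
    (hsplit : ∀ σ : Γ, ∃ α β : ResidueField 𝒪,
      LinearMap.charpoly (ρbar.ρ σ) = (X - C α) * (X - C β))
    (hTW : ∀ (K : Type) [Field K] [Algebra (ResidueField 𝒪) K] (G : Subgroup Γ), G.index = 2 →
      ∀ V : Submodule K (ρbar.baseChange K).V,
        (∀ σ ∈ G, ∀ x ∈ V, (ρbar.baseChange K).ρ σ x ∈ V) → V = ⊥ ∨ V = ⊤)
    (S : Finset ℕ) (hpSmin : p ∈ Smin) (hSmin : Smin ⊆ S)
    (hmin : ∀ q : ℕ, q.Prime → q ≠ p → (q ∈ Smin ↔ ¬ ρbar.IsUnramifiedAt q))
    (hpk : ((p : ℕ) : ResidueField 𝒪) = 0)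
    (hLEC : ∀ (Y : Rep (ZMod p) (primeLocalGaloisGroup (pPrime p)))
      [IsDiscrete (localLevel (primeLocalToGlobal (pPrime p))) Y] [FiniteDimensional (ZMod p) Y],
      finrank (ZMod p) (levelCohomology (localLevel (primeLocalToGlobal (pPrime p))) Y 1)
        = finrank (ZMod p) Y
          + finrank (ZMod p) (levelCohomology (localLevel (primeLocalToGlobal (pPrime p))) Y 0)
          + finrank (ZMod p) (levelCohomology (localLevel (primeLocalToGlobal (pPrime p))) Y 2))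
    (𝓛pfl : Submodule (ZMod p) (levelCohomology (localLevel (primeLocalToGlobal (pPrime p)))
      (Rep.res (primeLocalToGlobal (pPrime p)) (ad0 ρbar p)) 1))
    (hfl_tan : TangentAt ρbar p hpk (pPrime p) (fun ρA => ρA.IsFlatAt p) 𝓛pfl)
    (hfl_dim : finrank (ZMod p) 𝓛pfl +
        finrank (ZMod p) (levelCohomology (localLevel (primeLocalToGlobal (pPrime p)))
          (Rep.res (primeLocalToGlobal (pPrime p)) (ad0' ρbar p)) 0) +
        2 * finrank (ZMod p) (ResidueField 𝒪) ≤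
      finrank (ZMod p) (levelCohomology (localLevel (primeLocalToGlobal (pPrime p)))
        (Rep.res (primeLocalToGlobal (pPrime p)) (ad0 ρbar p)) 1))
    (hGEC : ∀ (Sg : Finset Nat.Primes) [IsDiscrete (globalLevel Sg) (ad0 ρbar p)],
      pPrime p ∈ Sg →
      finrank (ZMod p) (levelCohomology (globalLevel Sg) (ad0 ρbar p) 1) =
        finrank (ZMod p) (levelCohomology (globalLevel Sg) (ad0 ρbar p) 2) +
          finrank (ZMod p) (levelCohomology (globalLevel Sg) (ad0 ρbar p) 0) +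
          2 * finrank (ZMod p) (ResidueField 𝒪))
    (hH : HypH ρbar) :
    (∃ r : ℕ, ∀ n : ℕ, ∃ qv : Fin r → ℕ, Function.Injective qv ∧
      (∀ i, (qv i).Prime ∧ qv i ∉ S ∧ p ^ (n + 1) ∣ qv i - 1) ∧
      (∀ i, ∀ P : ValuationSubring (AlgebraicClosure ℚ), P.LiesOverPrime (qv i) →
        ∀ φ : AlgebraicClosure ℚ ≃ₐ[ℚ] AlgebraicClosure ℚ, P.IsFrobeniusAt φ (qv i) →
          ∃ α β : ResidueField 𝒪, α ≠ β ∧ LinearMap.charpoly (ρbar.ρ φ) = (X - C α) * (X - C β)) ∧
      ∀ DQ : GaloisRep.DeformationRingData 𝒪 ρbar (fun _A _ _ _ ρ =>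
          GaloisRep.strictOrdinaryCondition 𝒪 p (Smin ∪ Finset.univ.image qv) ρ ∧
            ∀ q ∈ Smin, q.Prime → q ≠ p → ρ.IsUnipotentOnInertiaAt q),
        ∃ γ : MvPowerSeries (Fin r) 𝒪 →ₐ[𝒪] DQ.R, Function.Surjective γ) ∧
    (∃ r : ℕ, ∀ n : ℕ, ∃ qv : Fin r → ℕ, Function.Injective qv ∧
      (∀ i, (qv i).Prime ∧ qv i ∉ S ∧ p ^ (n + 1) ∣ qv i - 1) ∧
      (∀ i, ∀ P : ValuationSubring (AlgebraicClosure ℚ), P.LiesOverPrime (qv i) →
        ∀ φ : AlgebraicClosure ℚ ≃ₐ[ℚ] AlgebraicClosure ℚ, P.IsFrobeniusAt φ (qv i) →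
          ∃ α β : ResidueField 𝒪, α ≠ β ∧ LinearMap.charpoly (ρbar.ρ φ) = (X - C α) * (X - C β)) ∧
      ∀ DQ : GaloisRep.DeformationRingData 𝒪 ρbar (fun _A _ _ _ ρ =>
          GaloisRep.flatCondition 𝒪 p (Smin ∪ Finset.univ.image qv) ρ ∧
            ∀ q ∈ Smin, q.Prime → q ≠ p → ρ.IsUnipotentOnInertiaAt q),
        ∃ γ : MvPowerSeries (Fin r) 𝒪 →ₐ[𝒪] DQ.R, Function.Surjective γ) := by
  have h2k : (2 : ResidueField 𝒪) ≠ 0 := by
    haveI : CharP (ResidueField 𝒪) p :=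
      (CharP.charP_iff_prime_eq_zero hp.out).mpr hpk
    intro h
    have h2 : ((2 : ℕ) : ResidueField 𝒪) = 0 := by exact_mod_cast h
    have hdvd := (CharP.cast_eq_zero_iff (ResidueField 𝒪) p 2).1 h2
    have := hp.out.two_le
    have := Nat.le_of_dvd (by norm_num) hdvd
    omega
  exact result_of_hyps p ρbar Smin hp2 hp𝒪 habs hdet hsplit hTW S hpSmin hSmin hmin hpk
    (fam p ρbar (soCond ρbar p (pPrime p) (localLevel (primeLocalToGlobal (pPrime p)))))
    (fam p ρbar 𝓛pfl)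
    (tangentHyp_so_fam p ρbar Smin _ h2k hmin hpk
      (Fermat.Agent.S56.Tan.SelmerSOAt.tangentAt_soCond h2k hp2 hdet (pPrime p) rfl))
    (tangentHyp_fl_fam p ρbar Smin _ h2k hmin hpk hfl_tan)
    (hdim_min_fam p ρbar Smin _ hp2 hpSmin hmin)
    (hdim_min_fam p ρbar Smin _ hp2 hpSmin hmin)
    (hdim_p_fam p ρbar _ (finrank_soCond_add_le_local p hp2 h2k hLEC))
    (hdim_p_fam p ρbar _ hfl_dim)
    hGEC hH

end Fermat.Agent.S56.Asm.Plug
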